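import Fermat.Agent.S16.H260.U0Leaves

/-!
# S16, work package U0 (helper260): the exact trace identity and its consequences

The three statements `U0_identity`, `U0_coeffs`, `U0_denominator` of helper556's skeleton
(`Fermat/Agent/S16/Skeleton.lean`), in their exact shapes.  The only inputs from other work
packages are explicit hypotheses, in the exact skeleton shapes:

* `hhat2` = FR `hat_two`   : `hat p 2 G = (-p) • heckeU 2 p G` for `G ∈ M₂(Γ₀(p))`;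
* `htr`   = FR `tr_mem_SF` : `tr p k F ∈ S_k(SL₂ℤ)` for `F ∈ S_k(Γ₀(p))` (used for `k = 14`);
* `hτ`    = L1 `exists_tau` (only for `U0_denominator`).

Everything else (`S₁₄(SL₂ℤ) = 0`, `Δ(p·) ∈ S₁₂(Γ₀(p))`, `(Δ(p·))^ = Δ`, multiplicativity of `hat`,
`q`-expansion calculus) is proved here.
-/

set_option autoImplicit false

noncomputable section

namespace Fermat.Agent.S16.H260

open UpperHalfPlane ModularForm CongruenceSubgroup MatrixGroups ModularFormClass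
open Fermat.Agent.S20 (MF SF)
open scoped Manifold

local notation "Δ" => ModularForm.discriminant

variable (p : ℕ) [Fact p.Prime]

/-- `G(z) Δ(pz) = p⁻¹² U_p (U_p G · Δ)`, from `Tr (G · Δ(p·)) ∈ S₁₄(SL₂ℤ) = 0`. -/
theorem U0_identity
    (hhat2 : ∀ {G : ℍ → ℂ}, G ∈ MF (Gamma0 p) 2 → hat p 2 G = (-(p : ℂ)) • heckeU 2 p G)
    (htr : ∀ {k : ℤ} {F : ℍ → ℂ}, F ∈ SF (Gamma0 p) k → tr p k F ∈ SF ⊤ k)
    {G : ℍ → ℂ} (hG : G ∈ MF (Gamma0 p) 2) :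
    G * Vp p (Δ : ℍ → ℂ) = ((p : ℂ) ^ (-12 : ℤ)) • heckeU 14 p (heckeU 2 p G * (Δ : ℍ → ℂ)) := by
  have hp : p.Prime := Fact.out
  haveI : NeZero p := ⟨hp.ne_zero⟩
  exact U0_identity_of hp.ne_zero hhat2 (hat_Vp_discriminant hp.ne_zero)
    (Vp_discriminant_mem_SF p) (fun hF => htr hF) SF_top_fourteen_h260 hG

/-- Coefficients of `q¹` and `q^p` in `U0_identity`. -/
theorem U0_coeffs
    (hhat2 : ∀ {G : ℍ → ℂ}, G ∈ MF (Gamma0 p) 2 → hat p 2 G = (-(p : ℂ)) • heckeU 2 p G)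
    (htr : ∀ {k : ℤ} {F : ℍ → ℂ}, F ∈ SF (Gamma0 p) k → tr p k F ∈ SF ⊤ k)
    (τ : ℕ → ℤ) (hτ : ∀ n, qCoeff (Δ : ℍ → ℂ) n = (τ n : ℂ))
    (hτ0 : τ 0 = 0) (hτ1 : τ 1 = 1) (hτp : τ (p ^ 2) = τ p ^ 2 - (p : ℤ) ^ 11)
    {G : ℍ → ℂ} (hG : G ∈ MF (Gamma0 p) 2) (hint : IntFrom1 G) :
    (∃ m : ℤ, qCoeff G 0 * (τ p : ℂ) = m) ∧
      ∃ m : ℤ, qCoeff G 0 * (((p : ℤ) ^ 11 * ((p : ℤ) + 1) - τ p ^ 2 : ℤ) : ℂ) = m :=
  U0_coeffs_of Fact.out (fun hG => U0_identity p hhat2 htr hG) τ hτ hτ0 hτ1 hτp hG hint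

/-- Consequence: the constant term is rational, and away from `p` its denominator divides
`p + 1`. -/
theorem U0_denominator
    (hhat2 : ∀ {G : ℍ → ℂ}, G ∈ MF (Gamma0 p) 2 → hat p 2 G = (-(p : ℂ)) • heckeU 2 p G)
    (htr : ∀ {k : ℤ} {F : ℍ → ℂ}, F ∈ SF (Gamma0 p) k → tr p k F ∈ SF ⊤ k)
    (hτ : ∃ τ : ℕ → ℤ, (∀ n, qCoeff (Δ : ℍ → ℂ) n = (τ n : ℂ)) ∧ τ 0 = 0 ∧ τ 1 = 1 ∧
      ∀ p : ℕ, p.Prime → τ (p ^ 2) = τ p ^ 2 - (p : ℤ) ^ 11)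
    {G : ℍ → ℂ} (hG : G ∈ MF (Gamma0 p) 2) (hint : IntFrom1 G) :
    ∃ r : ℚ, qCoeff G 0 = (r : ℂ) ∧
      ∀ ℓ : ℕ, ℓ.Prime → ℓ ≠ p → ∀ a : ℕ, ℓ ^ a ∣ r.den → ℓ ^ a ∣ p + 1 :=
  U0_denominator_of Fact.out
    (fun τ hτ hτ0 hτ1 hτp _ hG hint => U0_coeffs p hhat2 htr τ hτ hτ0 hτ1 hτp hG hint) hτ hG hint

end Fermat.Agent.S16.H260
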