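import Fermat.Agent.S16.Defs
import Fermat.Agent.S22T.Expand
import Fermat.Prelude.Thm_UpperHalfPlane_qCoeff_heckeU
import Fermat.Prelude.Thm_ModularForm_mdifferentiable_heckeU
import Fermat.Prelude.Thm_ModularForm_isBoundedAtImInfty_heckeU
import Fermat.Prelude.Thm_ModularForm_periodic_heckeU_comp_ofComplex

/-!
# S16 (helper260): `q`-expansion calculus at function level

`Nice f` : `f` is `1`-periodic, holomorphic and bounded at `i∞`; for such functions the
`q`-coefficients of products, scalar multiples, `U_p f` and `V_p f = f(p·)` are computed.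
-/

set_option autoImplicit false

noncomputable section

namespace Fermat.Agent.S16.H260

open UpperHalfPlane ModularForm CongruenceSubgroup MatrixGroups ModularFormClass
open Fermat.Agent.S20 (MF SF)
open scoped Manifold

local notation "𝕢" => Function.Periodic.qParam

/-- `1`-periodic, holomorphic, bounded at `i∞`. -/
structure Nice (f : ℍ → ℂ) : Prop where
  per : Function.Periodic (f ∘ ofComplex) 1
  hol : MDiff f
  bdd : IsBoundedAtImInfty f

namespace Nice

variable {f g : ℍ → ℂ}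

theorem analyticAt (hf : Nice f) : AnalyticAt ℂ (cuspFunction 1 f) 0 :=
  analyticAt_cuspFunction_zero one_pos hf.per hf.hol hf.bdd

theorem mul (hf : Nice f) (hg : Nice g) : Nice (f * g) where
  per := by
    intro w
    have h1 := hf.per w
    have h2 := hg.per w
    simp only [Function.comp_apply, Pi.mul_apply] at h1 h2 ⊢
    rw [h1, h2]
  hol := hf.hol.mul hg.hol
  bdd := hf.bdd.mul hg.bdd

theorem smul (c : ℂ) (hf : Nice f) : Nice (c • f) where
  per := by
    intro w
    have h1 := hf.per w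
    simp only [Function.comp_apply, Pi.smul_apply] at h1 ⊢
    rw [h1]
  hol := hf.hol.const_smul c
  bdd := hf.bdd.const_smul_left c

theorem heckeU (hf : Nice f) (k : ℤ) (p : ℕ) : Nice (ModularForm.heckeU k p f) where
  per := ModularForm.periodic_heckeU_comp_ofComplex hf.per k p
  hol := ModularForm.mdifferentiable_heckeU hf.hol k p
  bdd := ModularForm.isBoundedAtImInfty_heckeU hf.bdd k p

theorem hasSum (hf : Nice f) (z : ℍ) :
    HasSum (fun n : ℕ => qCoeff f n • 𝕢 1 z ^ n) (f z) :=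
  hasSum_qExpansion one_pos hf.per hf.hol hf.bdd z

end Nice

theorem qCoeff_mul {f g : ℍ → ℂ} (hf : Nice f) (hg : Nice g) (n : ℕ) :
    qCoeff (f * g) n = ∑ x ∈ Finset.HasAntidiagonal.antidiagonal n, qCoeff f x.1 * qCoeff g x.2 := by
  unfold qCoeff
  rw [qExpansion_mul hf.analyticAt hg.analyticAt, PowerSeries.coeff_mul]

theorem qCoeff_smul {f : ℍ → ℂ} (hf : Nice f) (c : ℂ) (n : ℕ) :
    qCoeff (c • f) n = c * qCoeff f n := by
  unfold qCoeff
  rw [qExpansion_smul hf.analyticAt]
  simp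

theorem qCoeff_heckeU {f : ℍ → ℂ} (hf : Nice f) (k : ℤ) {p : ℕ} (hp : p ≠ 0) (n : ℕ) :
    qCoeff (ModularForm.heckeU k p f) n = qCoeff f (n * p) := by
  rw [UpperHalfPlane.qCoeff_heckeU hf.per hf.hol hf.bdd k hp n]
  rfl

/-- product formula with analyticity hypotheses only -/
theorem qCoeff_mul' {f g : ℍ → ℂ} (hf : AnalyticAt ℂ (cuspFunction 1 f) 0)
    (hg : AnalyticAt ℂ (cuspFunction 1 g) 0) (n : ℕ) :
    qCoeff (f * g) n = ∑ x ∈ Finset.HasAntidiagonal.antidiagonal n, qCoeff f x.1 * qCoeff g x.2 := by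
  unfold qCoeff
  rw [qExpansion_mul hf hg, PowerSeries.coeff_mul]

/-- Elements of `MF Γ k` are nice as soon as `T ∈ Γ`. -/
theorem nice_of_mem_MF {Γ : Subgroup SL(2, ℤ)} (hT : ModularGroup.T ∈ Γ) {k : ℤ} {f : ℍ → ℂ}
    (hf : f ∈ MF Γ k) : Nice f where
  per := by
    have hshift : ∀ z : ℍ, f ((1 : ℝ) +ᵥ z) = f z := by
      intro z
      have h1 := congrFun (hf.2.1 _ hT) z
      rw [ModularForm.SL_slash_apply, UpperHalfPlane.modular_T_smul] at h1
      have : denom ModularGroup.T z = 1 := by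
        rw [ModularGroup.denom_apply]
        simp [ModularGroup.T]
      rwa [this, one_zpow, mul_one] at h1
    intro w
    by_cases! hw : 0 < Complex.im w
    · have hw' : 0 < Complex.im (w + 1) := by simp [hw]
      simp only [Function.comp_apply, ofComplex_apply_of_im_pos hw',
        ofComplex_apply_of_im_pos hw]
      rw [← hshift ⟨w, hw⟩]
      congr 1
      ext
      simp [add_comm]
    · have hw' : Complex.im (w + 1) ≤ 0 := by simpa using hw
      simp only [Function.comp_apply]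
      rw [ofComplex_apply_eq_of_im_nonpos hw' hw]
  hol := hf.1
  bdd := by
    have := hf.2.2 1
    rwa [SlashAction.slash_one] at this

theorem T_mem_Gamma0 (N : ℕ) : ModularGroup.T ∈ Gamma0 N := by
  rw [Gamma0_mem]
  simp [ModularGroup.T]

theorem nice_of_mem_MF_Gamma0 {N : ℕ} {k : ℤ} {f : ℍ → ℂ} (hf : f ∈ MF (Gamma0 N) k) : Nice f :=
  nice_of_mem_MF (T_mem_Gamma0 N) hf

theorem nice_of_mem_MF_top {k : ℤ} {f : ℍ → ℂ} (hf : f ∈ MF ⊤ k) : Nice f :=
  nice_of_mem_MF (Subgroup.mem_top _) hf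

/-- `V_p F` is holomorphic. -/
theorem mdiff_Vp {F : ℍ → ℂ} (hF : MDiff F) {p : ℕ} (hp : p ≠ 0) : MDiff (Vp p F) := by
  have h1 : Vp p F = F ∣[(1 : ℤ)] heckeDiagMatrix p := by
    funext z
    rw [slash_heckeDiagMatrix_apply 1 hp]
    simp [Vp]
  rw [h1]
  exact hF.slash 1 _

/-- `q`-coefficients of `V_p F = F(p·)`. -/
theorem qCoeff_Vp {F : ℍ → ℂ} (hF : Nice F) {p : ℕ} (hp : 0 < p) :
    AnalyticAt ℂ (cuspFunction 1 (Vp p F)) 0 ∧
      ∀ n, qCoeff (Vp p F) n = if p ∣ n then qCoeff F (n / p) else 0 := by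
  have hα : ∀ z : ℍ, 𝕢 1 ((heckeDiagMatrix p • z : ℍ) : ℂ) = 1 * 𝕢 1 (z : ℂ) ^ p := by
    intro z
    rw [coe_heckeDiagMatrix_smul hp.ne', one_mul]
    simp only [Function.Periodic.qParam, ← Complex.exp_nat_mul]
    congr 1
    push_cast
    ring
  obtain ⟨h1, h2⟩ := Fermat.Agent.S22T.expand_main (F := F) (G := Vp p F) (c := qCoeff F)
    hF.hasSum one_pos (fun z => heckeDiagMatrix p • z) p hp 1 hα (fun z => rfl)
    (mdiff_Vp hF.hol hp.ne')
  refine ⟨h1, fun n => ?_⟩
  have := h2 n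
  unfold qCoeff
  rw [this]
  simp [Fermat.Agent.S22T.expandCoeff, qCoeff]

end Fermat.Agent.S16.H260
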