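import Fermat.Agent.S16.Defs

/-!
# S16, work package U0 (helper260), part 1: the exact trace identity

`G(z) Δ(pz) = p⁻¹² U_p (U_p G · Δ)` for `G ∈ M₂(Γ₀(p))`, from `Tr (G · Δ(p·)) ∈ S₁₄(SL₂ℤ) = 0`.
Hypothesis-explicit: the facts of the packages FR and L1 that are used are hypotheses, in the
exact shapes of helper556's skeleton.
-/

set_option autoImplicit false

noncomputable section

namespace Fermat.Agent.S16.H260

open UpperHalfPlane ModularForm CongruenceSubgroup MatrixGroups ModularFormClass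
open Fermat.Agent.S20 (MF SF)
open scoped Manifold

local notation "Δ" => ModularForm.discriminant

/-- product of a modular form and a cusp form for the same group -/
theorem mul_mem_SF_same {Γ : Subgroup SL(2, ℤ)} {a k : ℤ} {E f : ℍ → ℂ}
    (hE : E ∈ MF Γ a) (hf : f ∈ SF Γ k) : E * f ∈ SF Γ (a + k) := by
  obtain ⟨hE1, hE2, hE3⟩ := hE
  obtain ⟨hf1, hf2, hf3⟩ := hf
  refine ⟨hE1.mul hf1, fun γ hγ => ?_, fun γ => ?_⟩
  · rw [ModularForm.mul_slash_SL2, hE2 γ hγ, hf2 γ hγ]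
  · rw [ModularForm.mul_slash_SL2, mul_comm]
    exact (hf3 γ).mul_boundedAtFilter (hE3 γ)

theorem mul_mem_SF_same' {Γ : Subgroup SL(2, ℤ)} {a k w : ℤ} {E f : ℍ → ℂ}
    (hE : E ∈ MF Γ a) (hf : f ∈ SF Γ k) (hw : a + k = w) : E * f ∈ SF Γ w := by
  subst hw
  exact mul_mem_SF_same hE hf

theorem det_frickeGL {p : ℕ} (hp : p ≠ 0) : ((frickeGL p).det : ℝ) = p := by
  rw [frickeGL, dif_neg hp, Matrix.GeneralLinearGroup.val_det_apply]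
  simp [Matrix.det_fin_two_of]

/-- `hat` is multiplicative. -/
theorem hat_mul_h260 {p : ℕ} (hp : p ≠ 0) (k₁ k₂ : ℤ) (F₁ F₂ : ℍ → ℂ) :
    hat p (k₁ + k₂) (F₁ * F₂) = hat p k₁ F₁ * hat p k₂ F₂ := by
  unfold hat
  rw [ModularForm.mul_slash, det_frickeGL hp]
  funext z
  simp only [Pi.smul_apply, Pi.mul_apply, smul_eq_mul, Nat.abs_cast, Complex.real_smul,
    Complex.ofReal_natCast]
  ring

theorem hat_mul_h260' {p : ℕ} (hp : p ≠ 0) {k₁ k₂ k : ℤ} (hk : k₁ + k₂ = k) (F₁ F₂ : ℍ → ℂ) :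
    hat p k (F₁ * F₂) = hat p k₁ F₁ * hat p k₂ F₂ := by
  subst hk
  exact hat_mul_h260 hp k₁ k₂ F₁ F₂

theorem tr_def_h260 (p : ℕ) (k : ℤ) (F : ℍ → ℂ) :
    tr p k F = F + ((p : ℂ) ^ (1 - k)) • heckeU k p (hat p k F) := rfl

/-- **U0 identity**, from the FR / L1 facts. -/
theorem U0_identity_of {p : ℕ} (hp : p ≠ 0)
    (hhat2 : ∀ {G : ℍ → ℂ}, G ∈ MF (Gamma0 p) 2 → hat p 2 G = (-(p : ℂ)) • heckeU 2 p G)
    (hhatVΔ : hat p 12 (Vp p (Δ : ℍ → ℂ)) = (Δ : ℍ → ℂ))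
    (hVΔ : Vp p (Δ : ℍ → ℂ) ∈ SF (Gamma0 p) 12)
    (htr : ∀ {F : ℍ → ℂ}, F ∈ SF (Gamma0 p) 14 → tr p 14 F ∈ SF ⊤ 14)
    (h14 : SF (⊤ : Subgroup SL(2, ℤ)) 14 = ⊥)
    {G : ℍ → ℂ} (hG : G ∈ MF (Gamma0 p) 2) :
    G * Vp p (Δ : ℍ → ℂ) = ((p : ℂ) ^ (-12 : ℤ)) • heckeU 14 p (heckeU 2 p G * (Δ : ℍ → ℂ)) := by
  have hp' : (p : ℂ) ≠ 0 := by exact_mod_cast hp
  have hF : G * Vp p (Δ : ℍ → ℂ) ∈ SF (Gamma0 p) 14 :=
    mul_mem_SF_same' hG hVΔ (by norm_num)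
  have h0 : tr p 14 (G * Vp p (Δ : ℍ → ℂ)) = 0 := by
    have := htr hF
    rw [h14] at this
    exact (Submodule.mem_bot ℂ).mp this
  have hhat : hat p 14 (G * Vp p (Δ : ℍ → ℂ)) = (-(p : ℂ)) • (heckeU 2 p G * (Δ : ℍ → ℂ)) := by
    rw [hat_mul_h260' hp (show (2 : ℤ) + 12 = 14 by norm_num), hhat2 hG, hhatVΔ, smul_mul_assoc]
  rw [tr_def_h260, hhat, heckeU_smul, smul_smul] at h0
  have hc : (p : ℂ) ^ (1 - 14 : ℤ) * (-(p : ℂ)) = -((p : ℂ) ^ (-12 : ℤ)) := by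
    rw [show (1 - 14 : ℤ) = -12 + -1 by norm_num, zpow_add₀ hp', zpow_neg_one]
    field_simp
  rw [hc] at h0
  funext z
  have := congrFun h0 z
  simp only [Pi.add_apply, Pi.smul_apply, smul_eq_mul, Pi.zero_apply] at this
  simp only [Pi.smul_apply, smul_eq_mul]
  linear_combination this

end Fermat.Agent.S16.H260
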