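import Fermat.Agent.S16.H260.QCalc
import Fermat.Agent.S16.H260.U0Identity
import Fermat.Agent.S20.L0_helper980

/-!
# S16, work package U0 (helper260), part 2: coefficients of `q¹` and `q^p` in the trace identity
-/

set_option autoImplicit false

noncomputable section

namespace Fermat.Agent.S16.H260

open UpperHalfPlane ModularForm CongruenceSubgroup MatrixGroups ModularFormClass
open Fermat.Agent.S20 (MF SF)
open scoped Manifold

local notation "Δ" => ModularForm.discriminant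

theorem nice_discriminant : Nice (Δ : ℍ → ℂ) :=
  nice_of_mem_MF_top (Fermat.Agent.S20.SF_le_MF _ _ Fermat.Agent.S20.C980.discriminant_mem)

/-- the tail of a convolution with an `IntFrom1` sequence is integral -/
theorem conv_tail_int {a : ℕ → ℂ} (ha : ∀ k : ℕ, 1 ≤ k → ∃ m : ℤ, a k = (m : ℂ)) (τ : ℕ → ℤ)
    {p : ℕ} (hp : 0 < p) (M : ℕ) :
    ∃ m : ℤ, ∑ x ∈ Finset.HasAntidiagonal.antidiagonal M, a (x.1 * p) * (τ x.2 : ℂ) =
      a 0 * (τ M : ℂ) + (m : ℂ) := by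
  classical
  have hmem : ((0 : ℕ), M) ∈ Finset.HasAntidiagonal.antidiagonal M := by
    simp [Finset.HasAntidiagonal.mem_antidiagonal]
  rw [← Finset.add_sum_erase _ _ hmem]
  have htail : ∃ m : ℤ, ∑ x ∈ (Finset.HasAntidiagonal.antidiagonal M).erase ((0 : ℕ), M),
      a (x.1 * p) * (τ x.2 : ℂ) = (m : ℂ) := by
    refine Finset.sum_induction _ (fun z : ℂ => ∃ m : ℤ, z = (m : ℂ)) ?_ ⟨0, by simp⟩ ?_
    · rintro _ _ ⟨m, rfl⟩ ⟨n, rfl⟩
      exact ⟨m + n, by push_cast; ring⟩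
    · intro x hx
      rw [Finset.mem_erase, Finset.HasAntidiagonal.mem_antidiagonal] at hx
      have hx1 : x.1 ≠ 0 := by
        intro h0
        apply hx.1
        ext
        · exact h0
        · simp only; omega
      obtain ⟨m, hm⟩ := ha (x.1 * p) (Nat.one_le_iff_ne_zero.mpr (Nat.mul_ne_zero hx1 hp.ne'))
      exact ⟨m * τ x.2, by rw [hm]; push_cast; ring⟩
  obtain ⟨m, hm⟩ := htail
  exact ⟨m, by rw [hm]; simp⟩

/-- **U0 coefficients**, from the identity. -/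
theorem U0_coeffs_of {p : ℕ} (hp : p.Prime)
    (hid : ∀ {G : ℍ → ℂ}, G ∈ MF (Gamma0 p) 2 →
      G * Vp p (Δ : ℍ → ℂ) = ((p : ℂ) ^ (-12 : ℤ)) • heckeU 14 p (heckeU 2 p G * (Δ : ℍ → ℂ)))
    (τ : ℕ → ℤ) (hτ : ∀ n, qCoeff (Δ : ℍ → ℂ) n = (τ n : ℂ))
    (hτ0 : τ 0 = 0) (hτ1 : τ 1 = 1) (hτp : τ (p ^ 2) = τ p ^ 2 - (p : ℤ) ^ 11)
    {G : ℍ → ℂ} (hG : G ∈ MF (Gamma0 p) 2) (hint : IntFrom1 G) :
    (∃ m : ℤ, qCoeff G 0 * (τ p : ℂ) = m) ∧
      ∃ m : ℤ, qCoeff G 0 * (((p : ℤ) ^ 11 * ((p : ℤ) + 1) - τ p ^ 2 : ℤ) : ℂ) = m := by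
  classical
  have hp0 : p ≠ 0 := hp.ne_zero
  have hpc : (p : ℂ) ≠ 0 := by exact_mod_cast hp0
  have hNG : Nice G := nice_of_mem_MF_Gamma0 hG
  have hNΔ : Nice (Δ : ℍ → ℂ) := nice_discriminant
  have hNU : Nice (heckeU 2 p G) := hNG.heckeU 2 p
  have hNH : Nice (heckeU 2 p G * (Δ : ℍ → ℂ)) := hNU.mul hNΔ
  obtain ⟨hVan, hVco⟩ := qCoeff_Vp hNΔ hp.pos
  -- coefficients of the right hand side
  have hR : ∀ n : ℕ, qCoeff (((p : ℂ) ^ (-12 : ℤ)) • heckeU 14 p (heckeU 2 p G * (Δ : ℍ → ℂ))) n =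
      (p : ℂ) ^ (-12 : ℤ) * ∑ x ∈ Finset.HasAntidiagonal.antidiagonal (n * p),
        qCoeff G (x.1 * p) * (τ x.2 : ℂ) := by
    intro n
    rw [qCoeff_smul (hNH.heckeU 14 p), qCoeff_heckeU hNH 14 hp0, qCoeff_mul hNU hNΔ]
    congr 1
    refine Finset.sum_congr rfl fun x _ => ?_
    rw [qCoeff_heckeU hNG 2 hp0, hτ]
  -- coefficients of the left hand side
  have hL : ∀ n : ℕ, qCoeff (G * Vp p (Δ : ℍ → ℂ)) n =
      ∑ x ∈ Finset.HasAntidiagonal.antidiagonal n,
        qCoeff G x.1 * (if p ∣ x.2 then (τ (x.2 / p) : ℂ) else 0) := by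
    intro n
    rw [qCoeff_mul' hNG.analyticAt hVan]
    refine Finset.sum_congr rfl fun x _ => ?_
    rw [hVco, ← hτ]
  have hL1 : qCoeff (G * Vp p (Δ : ℍ → ℂ)) 1 = 0 := by
    rw [hL]
    refine Finset.sum_eq_zero fun x hx => ?_
    rw [Finset.HasAntidiagonal.mem_antidiagonal] at hx
    by_cases hdvd : p ∣ x.2
    · have hx2 : x.2 = 0 := by
        rcases Nat.eq_zero_or_pos x.2 with h | h
        · exact h
        · have := Nat.le_of_dvd h hdvd
          have := hp.two_le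
          omega
      rw [if_pos hdvd, hx2, Nat.zero_div, hτ0]
      simp
    · rw [if_neg hdvd, mul_zero]
  have hLp : qCoeff (G * Vp p (Δ : ℍ → ℂ)) p = qCoeff G 0 := by
    rw [hL]
    rw [Finset.sum_eq_single ((0 : ℕ), p)]
    · simp [Nat.div_self hp.pos, hτ1]
    · intro x hx hne
      rw [Finset.HasAntidiagonal.mem_antidiagonal] at hx
      have hx1 : x.1 ≠ 0 := by
        intro h0
        apply hne
        ext
        · exact h0
        · simp only; omega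
      by_cases hdvd : p ∣ x.2
      · have hx2 : x.2 = 0 := by
          rcases Nat.eq_zero_or_pos x.2 with h | h
          · exact h
          · have := Nat.le_of_dvd h hdvd
            omega
        rw [if_pos hdvd, hx2, Nat.zero_div, hτ0]
        simp
      · rw [if_neg hdvd, mul_zero]
    · intro h
      exact absurd (by simp [Finset.HasAntidiagonal.mem_antidiagonal]) h
  have hidG := hid hG
  constructor
  · -- coefficient of q^1
    have h1 := hR 1
    rw [← hidG, hL1, one_mul] at h1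
    obtain ⟨m, hm⟩ := conv_tail_int hint τ hp.pos p
    rw [hm] at h1
    have h2 : qCoeff G 0 * (τ p : ℂ) + (m : ℂ) = 0 := by
      rcases mul_eq_zero.mp h1.symm with h | h
      · exact absurd h (zpow_ne_zero _ hpc)
      · exact h
    exact ⟨-m, by push_cast; linear_combination h2⟩
  · -- coefficient of q^p
    have h1 := hR p
    rw [← hidG, hLp] at h1
    obtain ⟨m, hm⟩ := conv_tail_int hint τ hp.pos (p * p)
    rw [hm, ← pow_two, hτp] at h1
    have h12 : (p : ℂ) ^ (-12 : ℤ) * (p : ℂ) ^ 12 = 1 := by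
      rw [zpow_neg, ← zpow_natCast]
      exact inv_mul_cancel₀ (zpow_ne_zero _ hpc)
    refine ⟨m, ?_⟩
    push_cast at h1 ⊢
    have h3 : qCoeff G 0 * (p : ℂ) ^ 12 =
        qCoeff G 0 * ((τ p : ℂ) ^ 2 - (p : ℂ) ^ 11) + (m : ℂ) := by
      linear_combination ((p : ℂ) ^ 12) * h1 +
        (qCoeff G 0 * ((τ p : ℂ) ^ 2 - (p : ℂ) ^ 11) + (m : ℂ)) * h12
    linear_combination h3

end Fermat.Agent.S16.H260
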