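import Fermat.Agent.S16.H260.U0Coeffs

/-!
# S16, work package U0 (helper260), part 3: the denominator of the constant term
-/

set_option autoImplicit false

noncomputable section

namespace Fermat.Agent.S16.H260

open UpperHalfPlane ModularForm CongruenceSubgroup MatrixGroups ModularFormClass
open Fermat.Agent.S20 (MF SF)
open scoped Manifold

local notation "Δ" => ModularForm.discriminant

/-- If `r * n` is an integer then the denominator of `r` divides `n`. -/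
theorem den_dvd_of_mul_int (r : ℚ) (n m : ℤ) (h : r * n = m) : (r.den : ℤ) ∣ n := by
  have h1 : (r.num : ℚ) * n = m * r.den := by
    have hden : (r.den : ℚ) ≠ 0 := by exact_mod_cast r.den_nz
    have : r = r.num / r.den := (Rat.num_div_den r).symm
    rw [this] at h
    field_simp at h
    rw [h, mul_comm]
  have h2 : r.num * n = m * r.den := by exact_mod_cast h1
  have hcop : IsCoprime (r.den : ℤ) r.num := by
    rw [Int.isCoprime_iff_gcd_eq_one]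
    have := r.reduced
    rw [Int.gcd_comm]
    simpa [Int.gcd, Nat.Coprime] using this
  exact hcop.dvd_of_dvd_mul_left ⟨m, by rw [h2]; ring⟩

/-- pure arithmetic core of `U0_denominator` -/
theorem denominator_arith {p : ℕ} (hp : p.Prime) (c0 : ℂ) (t : ℤ)
    (h1 : ∃ m : ℤ, c0 * (t : ℂ) = m)
    (h2 : ∃ m : ℤ, c0 * (((p : ℤ) ^ 11 * ((p : ℤ) + 1) - t ^ 2 : ℤ) : ℂ) = m) :
    ∃ r : ℚ, c0 = (r : ℂ) ∧
      ∀ ℓ : ℕ, ℓ.Prime → ℓ ≠ p → ∀ a : ℕ, ℓ ^ a ∣ r.den → ℓ ^ a ∣ p + 1 := by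
  obtain ⟨m1, hm1⟩ := h1
  obtain ⟨m2, hm2⟩ := h2
  set D : ℤ := (p : ℤ) ^ 11 * ((p : ℤ) + 1) - t ^ 2 with hD
  -- rationality
  have hrat : ∃ r : ℚ, c0 = (r : ℂ) := by
    by_cases ht : t = 0
    · have hD0 : D ≠ 0 := by
        rw [hD, ht]
        have hp0 : (0 : ℤ) < p := by exact_mod_cast hp.pos
        have : (0 : ℤ) < (p : ℤ) ^ 11 * ((p : ℤ) + 1) := by positivity
        simp only [ne_eq, zero_pow, OfNat.ofNat_ne_zero, not_false_eq_true, sub_zero]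
        exact this.ne'
      refine ⟨(m2 : ℚ) / D, ?_⟩
      have hDc : (D : ℂ) ≠ 0 := by exact_mod_cast hD0
      push_cast
      rw [eq_div_iff hDc]
      exact hm2
    · refine ⟨(m1 : ℚ) / t, ?_⟩
      have htc : (t : ℂ) ≠ 0 := by exact_mod_cast ht
      push_cast
      rw [eq_div_iff htc]
      exact hm1
  obtain ⟨r, hr⟩ := hrat
  refine ⟨r, hr, ?_⟩
  have e1 : r * t = m1 := by
    have : ((r * t : ℚ) : ℂ) = ((m1 : ℚ) : ℂ) := by
      push_cast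
      rw [← hr]
      exact hm1
    exact_mod_cast this
  have e2 : r * D = m2 := by
    have : ((r * D : ℚ) : ℂ) = ((m2 : ℚ) : ℂ) := by
      push_cast
      rw [← hr]
      exact_mod_cast hm2
    exact_mod_cast this
  have d1 := den_dvd_of_mul_int r t m1 e1
  have d2 := den_dvd_of_mul_int r D m2 e2
  have d3 : (r.den : ℤ) ∣ (p : ℤ) ^ 11 * ((p : ℤ) + 1) := by
    have : (p : ℤ) ^ 11 * ((p : ℤ) + 1) = D + t * t := by rw [hD]; ring
    rw [this]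
    exact dvd_add d2 (Dvd.dvd.mul_right d1 t)
  have d4 : r.den ∣ p ^ 11 * (p + 1) := by exact_mod_cast d3
  intro ℓ hℓ hne a ha
  have h5 : ℓ ^ a ∣ p ^ 11 * (p + 1) := dvd_trans ha d4
  have hcop : Nat.Coprime (ℓ ^ a) (p ^ 11) := by
    apply Nat.Coprime.pow
    exact (Nat.coprime_primes hℓ hp).mpr hne
  exact hcop.dvd_of_dvd_mul_left h5

/-- **U0 denominator**, from the coefficient statement. -/
theorem U0_denominator_of {p : ℕ} (hp : p.Prime)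
    (hco : ∀ (τ : ℕ → ℤ), (∀ n, qCoeff (Δ : ℍ → ℂ) n = (τ n : ℂ)) → τ 0 = 0 → τ 1 = 1 →
      τ (p ^ 2) = τ p ^ 2 - (p : ℤ) ^ 11 → ∀ {G : ℍ → ℂ}, G ∈ MF (Gamma0 p) 2 → IntFrom1 G →
      (∃ m : ℤ, qCoeff G 0 * (τ p : ℂ) = m) ∧
        ∃ m : ℤ, qCoeff G 0 * (((p : ℤ) ^ 11 * ((p : ℤ) + 1) - τ p ^ 2 : ℤ) : ℂ) = m)
    (hτ : ∃ τ : ℕ → ℤ, (∀ n, qCoeff (Δ : ℍ → ℂ) n = (τ n : ℂ)) ∧ τ 0 = 0 ∧ τ 1 = 1 ∧
      ∀ p : ℕ, p.Prime → τ (p ^ 2) = τ p ^ 2 - (p : ℤ) ^ 11)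
    {G : ℍ → ℂ} (hG : G ∈ MF (Gamma0 p) 2) (hint : IntFrom1 G) :
    ∃ r : ℚ, qCoeff G 0 = (r : ℂ) ∧
      ∀ ℓ : ℕ, ℓ.Prime → ℓ ≠ p → ∀ a : ℕ, ℓ ^ a ∣ r.den → ℓ ^ a ∣ p + 1 := by
  obtain ⟨τ, hτ, hτ0, hτ1, hτp⟩ := hτ
  obtain ⟨h1, h2⟩ := hco τ hτ hτ0 hτ1 (hτp p hp) hG hint
  exact denominator_arith hp _ (τ p) h1 h2

end Fermat.Agent.S16.H260
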