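import Fermat.Agent.S16.H260.U0Denominator
import Fermat.Agent.S20.F_helper658
import Fermat.Agent.S20.C0_helper516

/-!
# S16, work package U0 (helper260), part 4: the elementary inputs

* `SF_top_fourteen_h260` : `S₁₄(SL₂ℤ) = 0`;
* `Vp_discriminant_mem_SF` : `Δ(p·) ∈ S₁₂(Γ₀(p))`;
* `hat_Vp_of_slash_S` : `(V_p H)^ = H` for `H` invariant under `S`.
-/

set_option autoImplicit false

noncomputable section

namespace Fermat.Agent.S16.H260

open UpperHalfPlane ModularForm CongruenceSubgroup MatrixGroups ModularFormClass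
open Fermat.Agent.S20 (MF SF)
open scoped Manifold

local notation "Δ" => ModularForm.discriminant

/-- `S₁₄(SL₂ℤ) = 0`. -/
theorem SF_top_fourteen_h260 : SF (⊤ : Subgroup SL(2, ℤ)) 14 = ⊥ := by
  rw [eq_bot_iff]
  intro f hf
  obtain ⟨g, rfl⟩ := (Fermat.Agent.S20.C0h516.mem_SF_top_iff_exists).mp hf
  have hrank : Module.rank ℂ (CuspForm 𝒮ℒ 14) = 0 := by
    rw [CuspForm.discriminantEquiv.rank_eq]
    exact levelOne_weight_two_rank_zero
  have : g = 0 := rank_zero_iff_forall_zero.mp hrank g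
  rw [this]
  exact (Submodule.mem_bot ℂ).mpr rfl

open ConjAct Pointwise in
/-- `Δ ∣[12] diag(p,1)` as a cusp form of level `Γ₀(p)`. -/
def deltaDiag (N : ℕ) [NeZero N] : CuspForm (Gamma0 N : Subgroup (GL (Fin 2) ℝ)) 12 where
  toFun := (Δ : ℍ → ℂ) ∣[(12 : ℤ)] Fermat.Agent.S20.F658.gN N
  slash_action_eq' γ hγ :=
    (CuspForm.translate CuspForm.discriminant (Fermat.Agent.S20.F658.gN N)).slash_action_eq' γ
      (Fermat.Agent.S20.F658.Gamma0_le_conj N hγ)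
  holo' := (CuspForm.translate CuspForm.discriminant (Fermat.Agent.S20.F658.gN N)).holo'
  zero_at_cusps' hc :=
    (CuspForm.translate CuspForm.discriminant (Fermat.Agent.S20.F658.gN N)).zero_at_cusps'
      (hc.mono (Fermat.Agent.S20.F658.Gamma0_le_conj N))

theorem coe_deltaDiag (N : ℕ) [NeZero N] :
    (deltaDiag N : ℍ → ℂ) = (Δ : ℍ → ℂ) ∣[(12 : ℤ)] Fermat.Agent.S20.F658.gN N := rfl

theorem gN_eq_heckeDiagMatrix (N : ℕ) [NeZero N] :
    Fermat.Agent.S20.F658.gN N = heckeDiagMatrix N := by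
  apply Units.ext
  rw [val_heckeDiagMatrix (NeZero.ne N)]
  rfl

/-- `Δ(p·) ∈ S₁₂(Γ₀(p))`. -/
theorem Vp_discriminant_mem_SF (N : ℕ) [NeZero N] : Vp N (Δ : ℍ → ℂ) ∈ SF (Gamma0 N) 12 := by
  have hN : (N : ℂ) ≠ 0 := by exact_mod_cast NeZero.ne N
  have h1 : (deltaDiag N : ℍ → ℂ) ∈ SF (Gamma0 N) 12 :=
    Fermat.Agent.S20.C0h516.coe_mem_SF (deltaDiag N)
  have h2 : Vp N (Δ : ℍ → ℂ) = ((N : ℂ) ^ (12 - 1 : ℤ))⁻¹ • (deltaDiag N : ℍ → ℂ) := by
    funext z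
    rw [coe_deltaDiag, gN_eq_heckeDiagMatrix, Pi.smul_apply,
      slash_heckeDiagMatrix_apply 12 (NeZero.ne N), smul_eq_mul, ← mul_assoc,
      inv_mul_cancel₀ (zpow_ne_zero _ hN), one_mul]
    rfl
  rw [h2]
  exact Submodule.smul_mem _ _ h1

theorem σ_frickeGL {p : ℕ} (hp : p ≠ 0) : UpperHalfPlane.σ (frickeGL p) = .refl ℝ ℂ := by
  have : 0 < ((frickeGL p).det : ℝ) := by
    rw [det_frickeGL hp]
    exact_mod_cast Nat.pos_of_ne_zero hp
  rw [UpperHalfPlane.σ, if_pos this]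

theorem val_frickeGL {p : ℕ} (hp : p ≠ 0) :
    ((frickeGL p : GL (Fin 2) ℝ) : Matrix (Fin 2) (Fin 2) ℝ) = !![0, -1; (p : ℝ), 0] := by
  rw [frickeGL, dif_neg hp]
  rfl

theorem denom_frickeGL {p : ℕ} (hp : p ≠ 0) (z : ℍ) :
    denom (frickeGL p) z = (p : ℂ) * z := by
  simp [UpperHalfPlane.denom, val_frickeGL hp]

theorem coe_frickeGL_smul {p : ℕ} (hp : p ≠ 0) (z : ℍ) :
    ((frickeGL p • z : ℍ) : ℂ) = -1 / ((p : ℂ) * z) := by
  have hdet : 0 < ((frickeGL p).det : ℝ) := by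
    rw [det_frickeGL hp]
    exact_mod_cast Nat.pos_of_ne_zero hp
  rw [UpperHalfPlane.coe_smul_of_det_pos hdet]
  simp [UpperHalfPlane.num, UpperHalfPlane.denom, val_frickeGL hp]

/-- `hat p k F z = z^{-k} F(W z)`. -/
theorem hat_apply_h260 {p : ℕ} (hp : p ≠ 0) (k : ℤ) (F : ℍ → ℂ) (z : ℍ) :
    hat p k F z = (z : ℂ) ^ (-k) * F (frickeGL p • z) := by
  have hpc : (p : ℂ) ≠ 0 := by exact_mod_cast hp
  have hz : (z : ℂ) ≠ 0 := z.ne_zero
  unfold hat
  rw [Pi.smul_apply, ModularForm.slash_apply, σ_frickeGL hp, det_frickeGL hp, denom_frickeGL hp]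
  simp only [ContinuousAlgEquiv.refl_apply, Nat.abs_cast, Complex.ofReal_natCast, smul_eq_mul]
  rw [mul_zpow, zpow_sub₀ hpc, zpow_one, zpow_neg, zpow_neg]
  field_simp

/-- `(V_p H)^ = H` for `H` invariant under `S`. -/
theorem hat_Vp_of_slash_S {p : ℕ} (hp : p ≠ 0) {k : ℤ} {H : ℍ → ℂ}
    (hS : H ∣[k] ModularGroup.S = H) : hat p k (Vp p H) = H := by
  have hpc : (p : ℂ) ≠ 0 := by exact_mod_cast hp
  funext z
  have hz : (z : ℂ) ≠ 0 := z.ne_zero
  rw [hat_apply_h260 hp]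
  have hpt : heckeDiagMatrix p • (frickeGL p • z) = ModularGroup.S • z := by
    ext
    rw [coe_heckeDiagMatrix_smul hp, coe_frickeGL_smul hp, UpperHalfPlane.modular_S_smul]
    field_simp
  have h1 : Vp p H (frickeGL p • z) = H (ModularGroup.S • z) := by
    unfold Vp
    rw [hpt]
  have h2 := congrFun hS z
  rw [ModularForm.SL_slash_apply, ModularGroup.denom_S] at h2
  rw [h1, mul_comm]
  exact h2

theorem hat_Vp_discriminant {p : ℕ} (hp : p ≠ 0) :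
    hat p 12 (Vp p (Δ : ℍ → ℂ)) = (Δ : ℍ → ℂ) :=
  hat_Vp_of_slash_S hp ModularForm.discriminant_S_invariant

end Fermat.Agent.S16.H260
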